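import Fermat.Agent.Lifting.Deform.Ordinary
import Fermat.Agent.RT.Glue.Approx
import Fermat.Agent.RT.Lower.Descent

/-!
# Ordinarity from points

Let representations at points of an algebra have the traces and determinants of a representation
over the algebra which spans the endomorphisms, and let the points separate the algebra. If all of
them are ordinary at `p` with cyclotomic determinants, so is the representation: the equations of
ordinarity are equalities of traces. Strict ordinarity becomes the equality of the two diagonal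
characters up to the value of the cyclotomic character in the coefficient ring.
-/

set_option autoImplicit false
set_option linter.style.haveILetI false

noncomputable section

namespace Fermat.Agent.RT.Glue

open IsLocalRing Module
open Deform (Gal)
open Lifting (NatEnd NatScalar InSpan PlaceOver squareInertia ordEq strictEq stableEq quotEq
  traceEq coLineEnd lineEnd lineVal' quotVal')

section Trace

variable {A : Type} [CommRing A] [IsLocalRing A] {ρ : GaloisRepAdic A}

/-- An endomorphism with zero traces against a spanning set vanishes. -/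
theorem eq_zero_of_trace_mul (hspan : Submodule.span A (Set.range ρ.ρ) = ⊤) {E : Module.End A ρ.V}
    (h : ∀ g : Gal, LinearMap.trace A ρ.V (E * ρ.ρ g) = 0) : E = 0 := by
  have hX : ∀ X : Module.End A ρ.V, LinearMap.trace A ρ.V (E * X) = 0 := fun X => by
    have hmem : X ∈ Submodule.span A (Set.range ρ.ρ) := by rw [hspan]; trivial
    induction hmem using Submodule.span_induction with
    | mem X hX => obtain ⟨g, rfl⟩ := hX; exact h g
    | zero => rw [mul_zero, map_zero]
    | add x y _ _ hx hy => rw [mul_add, map_add, hx, hy, add_zero]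
    | smul c x _ hx => rw [mul_smul_comm, map_smul, hx, smul_zero]
  let b := Module.finBasisOfFinrankEq A ρ.V ρ.finrank_eq
  refine LinearMap.ext fun v => b.ext_elem fun i => ?_
  have := hX (LinearMap.smulRight (b.coord i) v)
  rw [show E * LinearMap.smulRight (b.coord i) v = LinearMap.smulRight (b.coord i) (E v) from
    LinearMap.ext fun x => by simp, LinearMap.trace_smulRight] at this
  simpa using this

variable (t : Gal → A) (d : A) (σ₀ : Gal)

/-- The trace of the stability equation against a group element. -/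
def stableTr (g h : Gal) : A :=
  d * t (g * σ₀ * h) - d * t (g * h) - t (σ₀ * g * σ₀ * h) + t (σ₀ * g * h)

/-- The trace of the triviality equation against a group element. -/
def quotTr (g h : Gal) : A := d * t (g * h) - d * t h - t (σ₀ * g * h) + t (σ₀ * h)

/-- The scaled difference of the value on the line and `c` times that on the quotient. -/
def diffTr (g : Gal) (c : A) : A := t (g * σ₀) - t g - c * (d * t g - t (σ₀ * g))

variable {t d σ₀} {B : Type} [CommRing B] (φ : A →+* B)

omit [IsLocalRing A] in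
theorem map_stableTr (g h : Gal) :
    φ (stableTr t d σ₀ g h) = stableTr (fun σ => φ (t σ)) (φ d) σ₀ g h := by
  simp [stableTr]

omit [IsLocalRing A] in
theorem map_quotTr (g h : Gal) :
    φ (quotTr t d σ₀ g h) = quotTr (fun σ => φ (t σ)) (φ d) σ₀ g h := by
  simp [quotTr]

omit [IsLocalRing A] in
theorem map_diffTr (g : Gal) (c : A) :
    φ (diffTr t d σ₀ g c) = diffTr (fun σ => φ (t σ)) (φ d) σ₀ g (φ c) := by
  simp [diffTr]

variable (σ₀) (ρ)

theorem coLineEnd_val : (coLineEnd σ₀).val ρ =
    LinearMap.det (ρ.ρ σ₀) • (1 : Module.End A ρ.V) - ρ.ρ σ₀ := by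
  simp only [coLineEnd, lineEnd, NatEnd.sub_val, NatEnd.smul_val, NatEnd.one_val,
    NatScalar.sub_val, NatScalar.det_val, NatScalar.int_val, NatEnd.gal_val, Int.cast_one, sub_smul,
    one_smul]
  abel

theorem trace_stableEq (g h : Gal) : LinearMap.trace A ρ.V ((stableEq σ₀ g).val ρ * ρ.ρ h) =
    stableTr (fun σ => LinearMap.trace A ρ.V (ρ.ρ σ)) (LinearMap.det (ρ.ρ σ₀)) σ₀ g h := by
  simp only [stableEq, NatEnd.mul_val, coLineEnd_val, lineEnd, NatEnd.sub_val, NatEnd.gal_val,
    NatEnd.one_val, stableTr, sub_mul, mul_sub, smul_mul_assoc, one_mul, mul_one, map_sub,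
    map_smul, smul_eq_mul, ← map_mul]
  ring

theorem trace_quotEq (g h : Gal) : LinearMap.trace A ρ.V ((quotEq σ₀ g).val ρ * ρ.ρ h) =
    quotTr (fun σ => LinearMap.trace A ρ.V (ρ.ρ σ)) (LinearMap.det (ρ.ρ σ₀)) σ₀ g h := by
  simp only [quotEq, NatEnd.mul_val, coLineEnd_val, NatEnd.sub_val, NatEnd.gal_val,
    NatEnd.one_val, quotTr, sub_mul, mul_sub, smul_mul_assoc, one_mul, mul_one, map_sub,
    map_smul, smul_eq_mul, ← map_mul]
  ring

theorem strictEq_val (g : Gal) (a : ℤ) :
    (lineVal' σ₀ g - NatScalar.int a • quotVal' σ₀ g).val ρ =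
      diffTr (fun σ => LinearMap.trace A ρ.V (ρ.ρ σ)) (LinearMap.det (ρ.ρ σ₀)) σ₀ g (a : A) •
        (1 : Module.End A ρ.V) := by
  simp only [lineVal', quotVal', NatEnd.sub_val, NatEnd.smul_val, NatEnd.one_val,
    NatScalar.trace_val, NatEnd.mul_val, NatEnd.gal_val, NatScalar.int_val, coLineEnd_val, lineEnd,
    sub_mul, mul_sub, smul_mul_assoc, one_mul, mul_one, map_sub, map_smul, smul_eq_mul, ← map_mul,
    smul_smul, ← sub_smul, diffTr]

theorem traceEq_val : (traceEq σ₀).val ρ =
    (LinearMap.trace A ρ.V (ρ.ρ σ₀) - LinearMap.det (ρ.ρ σ₀) - 1) • (1 : Module.End A ρ.V) := by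
  simp only [traceEq, NatEnd.smul_val, NatEnd.one_val, NatScalar.sub_val, NatScalar.trace_val,
    NatEnd.gal_val, NatScalar.det_val, NatScalar.int_val, Int.cast_one]

end Trace

variable {O : Type} [CommRing O] [IsLocalRing O] {p : ℕ} [Fact p.Prime]

variable {A : Type} [CommRing A] [IsLocalRing A] [Algebra O A] (ρ : GaloisRepAdic A)
  {ι : Type} {R : ι → Type} [∀ i, CommRing (R i)] [∀ i, IsLocalRing (R i)]
  [∀ i, Algebra O (R i)] (ρ' : ∀ i, GaloisRepAdic (R i))
  {K : ι → Type} [∀ i, CommRing (K i)] {f : ∀ i, A →+* K i} {j : ∀ i, R i →+* K i}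

/-- Ordinarity at every point gives ordinarity. -/
theorem isOrdinaryAt_of_points (hp2 : p ≠ 2) (hdet : ρ.DetIsCyclotomic p)
    (hspan : Submodule.span A (Set.range ρ.ρ) = ⊤) (hf : ∀ x, (∀ i, f i x = 0) → x = 0)
    (htr : ∀ i σ, f i (LinearMap.trace A ρ.V (ρ.ρ σ)) =
      j i (LinearMap.trace (R i) (ρ' i).V ((ρ' i).ρ σ)))
    (hd : ∀ i σ, f i (LinearMap.det (ρ.ρ σ)) = j i (LinearMap.det ((ρ' i).ρ σ)))
    (hdet' : ∀ i, (ρ' i).DetIsCyclotomic p) (h : ∀ i, (ρ' i).IsOrdinaryAt p) :
    ρ.IsOrdinaryAt p := by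
  refine Lifting.isOrdinaryAt_of_ordEq (O := ℤ) hp2 hdet fun P => ?_
  have hi := fun i => Lifting.ordEq_of_isOrdinaryAt (O := ℤ) hp2 (hdet' i) (h i) P
  set s := squareInertia p P.1
  refine ⟨fun _ => ?_, fun g => eq_zero_of_trace_mul hspan fun k => hf _ fun i => ?_,
    fun g => eq_zero_of_trace_mul hspan fun k => hf _ fun i => ?_⟩
  · show (traceEq s).val ρ = 0
    rw [traceEq_val, Lifting.smul_one_eq_zero_iff]
    refine hf _ fun i => ?_
    have h1 : (traceEq s).val (ρ' i) = 0 := (hi i).1 ()
    rw [traceEq_val, Lifting.smul_one_eq_zero_iff] at h1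
    simp only [map_sub, map_one, htr, hd]
    rw [← map_sub, ← map_one (j i), ← map_sub, h1, map_zero]
  · have h1 : (stableEq s g.1).val (ρ' i) = 0 := (hi i).2.1 g
    rw [trace_stableEq, map_stableTr]
    simp only [htr, hd]
    rw [← map_stableTr (j i), ← trace_stableEq, h1, zero_mul, map_zero, map_zero]
  · have h1 : (quotEq s g.1).val (ρ' i) = 0 := (hi i).2.2 g
    rw [trace_quotEq, map_quotTr]
    simp only [htr, hd]
    rw [← map_quotTr (j i), ← trace_quotEq, h1, zero_mul, map_zero, map_zero]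

/-- Strict ordinarity at every point gives strict ordinarity. -/
theorem isStrictOrdinaryAt_of_points [IsAdicComplete (maximalIdeal O) O]
    (hp : (p : O) ∈ maximalIdeal O) [∀ i, IsHausdorff (maximalIdeal (R i)) (R i)]
    (hp2 : p ≠ 2) (hdet : ρ.DetIsCyclotomic p)
    (hspan : Submodule.span A (Set.range ρ.ρ) = ⊤) (hf : ∀ x, (∀ i, f i x = 0) → x = 0)
    (hcomm : ∀ i x, f i (algebraMap O A x) = j i (algebraMap O (R i) x))
    (htr : ∀ i σ, f i (LinearMap.trace A ρ.V (ρ.ρ σ)) =
      j i (LinearMap.trace (R i) (ρ' i).V ((ρ' i).ρ σ)))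
    (hd : ∀ i σ, f i (LinearMap.det (ρ.ρ σ)) = j i (LinearMap.det ((ρ' i).ρ σ)))
    (hdet' : ∀ i, (ρ' i).DetIsCyclotomic p) (h : ∀ i, (ρ' i).IsStrictOrdinaryAt p) :
    ρ.IsStrictOrdinaryAt p := by
  refine (Lifting.isStrictOrdinaryAt_iff_strictEq (O := O) hp2 hdet).2
    ⟨Lifting.ordEq_of_isOrdinaryAt hp2 hdet (isOrdinaryAt_of_points ρ ρ' hp2 hdet hspan
      hf htr hd hdet' fun i => (h i).isOrdinaryAt), ?_⟩
  rintro P g n a ha
  show InSpan (p ^ n) ((lineVal' (squareInertia p P.1) g.1 -
    NatScalar.int a • quotVal' (squareInertia p P.1) g.1).val ρ)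
  set s := squareInertia p P.1
  rw [strictEq_val, Lifting.inSpan_smul_one_iff]
  obtain ⟨c, hc⟩ : ∃ c : O, ∀ n a : ℕ, (∀ μ : AlgebraicClosure ℚ, μ ^ p ^ n = 1 →
      g.1 μ = μ ^ a) → c - a ∈ Ideal.span {((p ^ n : ℕ) : O)} :=
    (Lower.exists_cycValues hp).imp' (fun c => c g.1) fun _ hc => hc g.1
  set t := fun σ => LinearMap.trace A ρ.V (ρ.ρ σ)
  set d := LinearMap.det (ρ.ρ s)
  have hexact : diffTr t d s g.1 (algebraMap O A c) = 0 := hf _ fun i => by
    have hR : diffTr (fun σ => LinearMap.trace (R i) (ρ' i).V ((ρ' i).ρ σ))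
        (LinearMap.det ((ρ' i).ρ s)) s g.1 (algebraMap O (R i) c) = 0 := by
      refine IsHausdorff.haus (inferInstance : IsHausdorff (maximalIdeal (R i)) (R i)) _ fun m => ?_
      rw [SModEq.zero, smul_eq_mul, Ideal.mul_top]
      refine Ideal.pow_right_mono ((Ideal.span_singleton_le_iff_mem _).2 (hdet' i).1) m ?_
      obtain ⟨b, hb⟩ := exists_exponent (p := p) g.1 m
      have h1 := ((Lifting.isStrictOrdinaryAt_iff_strictEq (O := O) hp2 (hdet' i)).1 (h i)).2
        P g m b hb
      change InSpan (p ^ m) ((lineVal' s g.1 - NatScalar.int b • quotVal' s g.1).val (ρ' i)) at h1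
      rw [strictEq_val, Lifting.inSpan_smul_one_iff, Int.cast_natCast, Nat.cast_pow] at h1
      have h2 := Ideal.mem_map_of_mem (algebraMap O (R i)) (hc m b hb)
      rw [Ideal.map_span, Set.image_singleton, map_natCast, map_sub, map_natCast, Nat.cast_pow]
        at h2
      rw [Ideal.span_singleton_pow]
      have e : diffTr (fun σ => LinearMap.trace (R i) (ρ' i).V ((ρ' i).ρ σ))
          (LinearMap.det ((ρ' i).ρ s)) s g.1 (algebraMap O (R i) c) =
          diffTr (fun σ => LinearMap.trace (R i) (ρ' i).V ((ρ' i).ρ σ))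
              (LinearMap.det ((ρ' i).ρ s)) s g.1 (b : R i) -
            (algebraMap O (R i) c - b) * (LinearMap.det ((ρ' i).ρ s) *
              LinearMap.trace (R i) (ρ' i).V ((ρ' i).ρ g.1) -
              LinearMap.trace (R i) (ρ' i).V ((ρ' i).ρ (s * g.1))) := by
        simp only [diffTr]; ring
      rw [e]
      exact sub_mem h1 (Ideal.mul_mem_right _ _ h2)
    rw [map_diffTr]
    simp only [t, d, htr, hd, hcomm]
    rw [← map_diffTr (j i), hR, map_zero]
  have h2 := Ideal.mem_map_of_mem (algebraMap O A) (hc n a ha)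
  rw [Ideal.map_span, Set.image_singleton, map_natCast, map_sub, map_natCast] at h2
  rw [Int.cast_natCast, show diffTr t d s g.1 (a : A) = diffTr t d s g.1 (algebraMap O A c) +
    (algebraMap O A c - a) * (d * t g.1 - t (s * g.1)) by simp only [diffTr]; ring, hexact, zero_add]
  exact Ideal.mul_mem_right _ _ h2

end Fermat.Agent.RT.Glue
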